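import Mathlib

/-!
# Row LT, tower T2, leaf T2.22d.4 `LocArchC175` (helper355): the linear algebra

OFF-MAIN.  Mathlib only.  For every `M ∈ M₂(ℂ)` there is `A ∈ SU(2)` with
`θ(M) A = A M`, `θ([[a, b], [c, d]]) = [[a, -c], [-b, d]]`; `A` is real if `M` is real.

`A = [[α, -β], [β, conj α]]` with `β` real, `|α|² + β² = 1`, `β (d - a) = α b + conj α · c`.
-/

set_option autoImplicit false

open scoped ComplexConjugate

noncomputable section

namespace Fermat.Agent.LT.T2.H355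

/-- two real linear equations in three real unknowns have a non-zero solution -/
theorem exists_kernel355 (u v : Fin 3 → ℝ) :
    ∃ w : Fin 3 → ℝ, w ≠ 0 ∧ u 0 * w 0 + u 1 * w 1 + u 2 * w 2 = 0 ∧
      v 0 * w 0 + v 1 * w 1 + v 2 * w 2 = 0 := by
  let f : (Fin 3 → ℝ) →ₗ[ℝ] (Fin 2 → ℝ) := Matrix.mulVecLin (Matrix.of ![u, v])
  have h : LinearMap.ker f ≠ ⊥ := LinearMap.ker_ne_bot_of_finrank_lt (by simp)
  obtain ⟨w, hw, hw0⟩ := Submodule.exists_mem_ne_zero_of_ne_bot h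
  have hk : f w = 0 := LinearMap.mem_ker.1 hw
  refine ⟨w, hw0, ?_, ?_⟩
  · have h0 := congrFun hk 0
    simpa [f, Matrix.mulVec, dotProduct, Fin.sum_univ_three] using h0
  · have h1 := congrFun hk 1
    simpa [f, Matrix.mulVec, dotProduct, Fin.sum_univ_three] using h1

/-- the core: from a non-zero real solution `(x, y, t)` of the two real equations -/
theorem core355 (M : Matrix (Fin 2) (Fin 2) ℂ) (x y t : ℝ) (h0 : x ^ 2 + y ^ 2 + t ^ 2 ≠ 0)
    (hR : t * ((M 1 1).re - (M 0 0).re)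
      = x * ((M 0 1).re + (M 1 0).re) + y * ((M 1 0).im - (M 0 1).im))
    (hI : t * ((M 1 1).im - (M 0 0).im)
      = x * ((M 0 1).im + (M 1 0).im) + y * ((M 0 1).re - (M 1 0).re)) :
    ∃ A : Matrix (Fin 2) (Fin 2) ℂ,
      A * A.conjTranspose = 1 ∧ A.det = 1 ∧
        !![M 0 0, -M 1 0; -M 0 1, M 1 1] * A = A * M ∧
        (y = 0 → ∀ i j, (A i j).im = 0) := by
  have hpos : 0 < x ^ 2 + y ^ 2 + t ^ 2 :=
    lt_of_le_of_ne (by positivity) (Ne.symm h0)
  set n : ℝ := Real.sqrt (x ^ 2 + y ^ 2 + t ^ 2) with hn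
  have hn0 : n ≠ 0 := (Real.sqrt_pos.2 hpos).ne'
  have hn2 : n ^ 2 = x ^ 2 + y ^ 2 + t ^ 2 := Real.sq_sqrt hpos.le
  set X : ℝ := x / n with hX
  set Y : ℝ := y / n with hY
  set T : ℝ := t / n with hT
  have hnorm : X ^ 2 + Y ^ 2 + T ^ 2 = 1 := by
    rw [hX, hY, hT, div_pow, div_pow, div_pow, ← add_div, ← add_div, hn2, div_self h0]
  have hR' : T * ((M 1 1).re - (M 0 0).re)
      = X * ((M 0 1).re + (M 1 0).re) + Y * ((M 1 0).im - (M 0 1).im) := by
    rw [hX, hY, hT]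
    field_simp
    linear_combination hR
  have hI' : T * ((M 1 1).im - (M 0 0).im)
      = X * ((M 0 1).im + (M 1 0).im) + Y * ((M 0 1).re - (M 1 0).re) := by
    rw [hX, hY, hT]
    field_simp
    linear_combination hI
  -- the complex equation
  have hE : ((T : ℝ) : ℂ) * (M 1 1 - M 0 0)
      = (⟨X, Y⟩ : ℂ) * M 0 1 + (⟨X, -Y⟩ : ℂ) * M 1 0 := by
    apply Complex.ext
    · simp only [Complex.mul_re, Complex.sub_re, Complex.sub_im, Complex.add_re,
        Complex.ofReal_re, Complex.ofReal_im, zero_mul, sub_zero]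
      linear_combination hR'
    · simp only [Complex.mul_im, Complex.sub_re, Complex.sub_im, Complex.add_im,
        Complex.ofReal_re, Complex.ofReal_im, zero_mul, add_zero]
      linear_combination hI'
  have hN : (⟨X, Y⟩ : ℂ) * (⟨X, -Y⟩ : ℂ) + ((T : ℝ) : ℂ) * ((T : ℝ) : ℂ) = 1 := by
    apply Complex.ext
    · simp only [Complex.add_re, Complex.mul_re, Complex.ofReal_re, Complex.ofReal_im,
        Complex.one_re, mul_zero, sub_zero]
      linear_combination hnorm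
    · simp only [Complex.add_im, Complex.mul_im, Complex.ofReal_re, Complex.ofReal_im,
        Complex.one_im, mul_zero, zero_mul, add_zero]
      ring
  have hc1 : (starRingEnd ℂ) (⟨X, Y⟩ : ℂ) = (⟨X, -Y⟩ : ℂ) := rfl
  have hc2 : (starRingEnd ℂ) (⟨X, -Y⟩ : ℂ) = (⟨X, Y⟩ : ℂ) := by
    apply Complex.ext <;> simp
  have hc3 : (starRingEnd ℂ) ((T : ℝ) : ℂ) = ((T : ℝ) : ℂ) := Complex.conj_ofReal T
  have hAH : (!![(⟨X, Y⟩ : ℂ), -((T : ℝ) : ℂ); ((T : ℝ) : ℂ), (⟨X, -Y⟩ : ℂ)] :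
      Matrix (Fin 2) (Fin 2) ℂ).conjTranspose
      = !![(⟨X, -Y⟩ : ℂ), ((T : ℝ) : ℂ); -((T : ℝ) : ℂ), (⟨X, Y⟩ : ℂ)] := by
    ext i j
    fin_cases i <;> fin_cases j
    · exact hc1
    · exact hc3
    · show (starRingEnd ℂ) (-((T : ℝ) : ℂ)) = -((T : ℝ) : ℂ)
      rw [map_neg, hc3]
    · exact hc2
  refine ⟨!![(⟨X, Y⟩ : ℂ), -((T : ℝ) : ℂ); ((T : ℝ) : ℂ), (⟨X, -Y⟩ : ℂ)], ?_, ?_, ?_, ?_⟩
  · rw [hAH]
    ext i j
    fin_cases i <;> fin_cases j
    · simp only [Fin.zero_eta, Fin.isValue, Matrix.mul_apply, Fin.sum_univ_two,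
        Matrix.of_apply, Matrix.cons_val', Matrix.cons_val_zero,
        Matrix.cons_val_fin_one, Matrix.cons_val_one, Matrix.one_apply_eq]
      linear_combination hN
    · simp only [Fin.zero_eta, Fin.isValue, Fin.mk_one, Matrix.mul_apply, Fin.sum_univ_two,
        Matrix.of_apply, Matrix.cons_val', Matrix.cons_val_zero,
        Matrix.cons_val_fin_one, Matrix.cons_val_one, ne_eq, zero_ne_one, not_false_eq_true,
        Matrix.one_apply_ne]
      ring
    · simp only [Fin.zero_eta, Fin.isValue, Fin.mk_one, Matrix.mul_apply, Fin.sum_univ_two,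
        Matrix.of_apply, Matrix.cons_val', Matrix.cons_val_zero,
        Matrix.cons_val_fin_one, Matrix.cons_val_one, ne_eq, one_ne_zero, not_false_eq_true,
        Matrix.one_apply_ne]
      ring
    · simp only [Fin.mk_one, Fin.isValue, Matrix.mul_apply, Fin.sum_univ_two,
        Matrix.of_apply, Matrix.cons_val', Matrix.cons_val_zero,
        Matrix.cons_val_fin_one, Matrix.cons_val_one, Matrix.one_apply_eq]
      linear_combination hN
  · rw [Matrix.det_fin_two_of]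
    linear_combination hN
  · ext i j
    fin_cases i <;> fin_cases j
    · simp [Matrix.mul_apply, Fin.sum_univ_two]
      ring
    · simp [Matrix.mul_apply, Fin.sum_univ_two]
      linear_combination hE
    · simp [Matrix.mul_apply, Fin.sum_univ_two]
      linear_combination hE
    · simp [Matrix.mul_apply, Fin.sum_univ_two]
      ring
  · intro hy i j
    have hY0 : Y = 0 := by rw [hY, hy, zero_div]
    fin_cases i <;> fin_cases j <;> simp [hY0]

/-- **T2.22d.4, explicit form.** -/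
theorem locArch355 (M : Matrix (Fin 2) (Fin 2) ℂ) :
    ∃ A : Matrix (Fin 2) (Fin 2) ℂ,
      A * A.conjTranspose = 1 ∧ A.det = 1 ∧
        !![M 0 0, -M 1 0; -M 0 1, M 1 1] * A = A * M ∧
        ((∀ i j, (M i j).im = 0) → ∀ i j, (A i j).im = 0) := by
  by_cases hreal : ∀ i j, (M i j).im = 0
  · by_cases h2 : (M 1 1).re - (M 0 0).re = 0 ∧ (M 0 1).re + (M 1 0).re = 0
    · obtain ⟨A, h1, h2', h3, h4⟩ := core355 M 1 0 0 (by norm_num)
        (by rw [h2.2]; ring)
        (by rw [hreal 0 0, hreal 1 1, hreal 0 1, hreal 1 0]; ring)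
      exact ⟨A, h1, h2', h3, fun _ => h4 rfl⟩
    · have hne : ((M 1 1).re - (M 0 0).re) ^ 2 + (0 : ℝ) ^ 2 + ((M 0 1).re + (M 1 0).re) ^ 2 ≠ 0 := by
        intro h0
        apply h2
        have ha : 0 ≤ ((M 1 1).re - (M 0 0).re) ^ 2 := sq_nonneg _
        have hb : 0 ≤ ((M 0 1).re + (M 1 0).re) ^ 2 := sq_nonneg _
        have ha0 : ((M 1 1).re - (M 0 0).re) ^ 2 = 0 := by nlinarith
        have hb0 : ((M 0 1).re + (M 1 0).re) ^ 2 = 0 := by nlinarith
        exact ⟨pow_eq_zero_iff (two_ne_zero) |>.1 ha0, pow_eq_zero_iff (two_ne_zero) |>.1 hb0⟩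
      obtain ⟨A, h1, h2', h3, h4⟩ := core355 M ((M 1 1).re - (M 0 0).re) 0
        ((M 0 1).re + (M 1 0).re) hne (by ring)
        (by rw [hreal 0 0, hreal 1 1, hreal 0 1, hreal 1 0]; ring)
      exact ⟨A, h1, h2', h3, fun _ => h4 rfl⟩
  · obtain ⟨w, hw0, hu, hv⟩ := exists_kernel355
      ![-((M 0 1).re + (M 1 0).re), -((M 1 0).im - (M 0 1).im), (M 1 1).re - (M 0 0).re]
      ![-((M 0 1).im + (M 1 0).im), -((M 0 1).re - (M 1 0).re), (M 1 1).im - (M 0 0).im]
    have hne : w 0 ^ 2 + w 1 ^ 2 + w 2 ^ 2 ≠ 0 := by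
      intro h0
      apply hw0
      have h00 : 0 ≤ w 0 ^ 2 := sq_nonneg _
      have h11 : 0 ≤ w 1 ^ 2 := sq_nonneg _
      have h22 : 0 ≤ w 2 ^ 2 := sq_nonneg _
      have e0 : w 0 ^ 2 = 0 := by nlinarith
      have e1 : w 1 ^ 2 = 0 := by nlinarith
      have e2 : w 2 ^ 2 = 0 := by nlinarith
      funext i
      fin_cases i
      · exact pow_eq_zero_iff (two_ne_zero) |>.1 e0
      · exact pow_eq_zero_iff (two_ne_zero) |>.1 e1
      · exact pow_eq_zero_iff (two_ne_zero) |>.1 e2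
    simp only [Fin.isValue, Matrix.cons_val_zero, Matrix.cons_val_one, Matrix.cons_val] at hu hv
    obtain ⟨A, h1, h2', h3, _⟩ := core355 M (w 0) (w 1) (w 2) hne
      (by linear_combination hu) (by linear_combination hv)
    exact ⟨A, h1, h2', h3, fun h => absurd h hreal⟩

end Fermat.Agent.LT.T2.H355

end
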