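import Fermat.Agent.LT.T2.H175.TauSpec
import Fermat.Agent.LT.T2.H355.LocArchCore

/-!
# Row LT, tower T2, leaf T2.22d.4 (helper355): `locArchC355 : H175.LocArchC175`

OFF-MAIN.  The frozen Prop of `LT/T2/H175/TauSpec.lean` (helper175@f81a7bf74, sha256 da27a6e8),
unconditional; the linear algebra is in `LocArchCore.lean` (Mathlib only).
-/

set_option autoImplicit false

namespace Fermat.Agent.LT.T2.H355

/-- **T2.22d.4.** -/
theorem locArchC355 : Fermat.Agent.LT.T2.H175.LocArchC175 := by
  intro M
  exact locArch355 M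

end Fermat.Agent.LT.T2.H355
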